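import Mathlib
import Fermat.Agent.H99.SS2.AsmPt
import Fermat.Agent.H99.SS2.FracL
import Fermat.Agent.H35.SS2.AsmDefs
import Fermat.Agent.H35.SS2.AsmBase
import Fermat.Agent.H35.SS2.ChartBeta
import Fermat.Agent.H4.SS.Hartogs

/-!
# P-SS2 (S36), block (P) POINTS, chart `x = j` (helper99)

The FIRST conjunct of `Fermat.Agent.H35.SS2.AsmPoints` at the model level: every closed point
`𝔪 ∋ q` of the chart `B(j)` of level `M' q²` over the unramified base `OK` satisfies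
`Fermat.Agent.H19.SS2.AsmPt`.

* `asmPtChart_gen` : the per-point statement, ALL primes `q`, Hauptmodul-free.  The model-level
  plumbing of `Fermat.Agent.H99.SS2.asmPt_val3_below` (injectivity, transcendence, finiteness,
  the two chart equalities `B(α j) = B(j) = B(β j)`, `V_∞ = B'_{𝔭_∞}`, `V_0 = B'_{𝔭_0}`, local
  Hartogs, and the fields of `AsmGlobal`) is filled in; what remains as hypotheses is
  - `hregL`  : REGL in the chart `j` of level `M' q` (`RegLAtOne` with the node parameters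
    `X₁, Y₁`),
  - `hkron`  : the Kronecker package (EXACTLY the conclusion of
    `Fermat.Agent.H93.SS2.modelKronRel_gen` / `modelKronRel4`),
  - `h11`    : REG11 at the points on `V₁₁` only (EXACTLY the hypothesis `h11` of
    `asmPt_val3_below`).
* `asmPointsChart_gen` : the same for all closed points.
-/

set_option autoImplicit false
set_option linter.style.haveILetI false
set_option linter.unusedSectionVars false
set_option linter.unusedVariables false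

noncomputable section

namespace Fermat.Agent.H16.SS2P

open Fermat.Agent.H99.SS2

open ModularCurve AlgebraicCurve
open Fermat.Agent.H22.KL Fermat.Agent.H11.SS2 Fermat.Agent.H7.SS2 Fermat.Agent.H19.SS2
open Fermat.Agent.H35.SS2 Fermat.Agent.H7.SS Fermat.Agent.H82.SS

section Gen

variable (M' q : ℕ) [NeZero M'] [NeZero q]
  (K₁ : Type) [Field K₁] [Algebra ℚ K₁] [FiniteDimensional ℚ K₁] (OK : ValuationSubring K₁)
  [IsDiscreteValuationRing ↥OK]
  [Algebra ↥OK (ModelField K₁ (M' * q))] [IsScalarTower ↥OK K₁ (ModelField K₁ (M' * q))]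
  [Algebra ↥OK (ModelField K₁ (M' * q * q))]
  [IsScalarTower ↥OK K₁ (ModelField K₁ (M' * q * q))]

/-- **(P) POINTS, chart `j`, per point, all primes `q`, Hauptmodul-free.** -/
theorem asmPtChart_gen (hq : q.Prime) (hqM : ¬ q ∣ M')
    (hirr : Irreducible ((q : ℕ) : ↥OK))
    (W : ModelField K₁ (M' * q) ≃ₐ[K₁] ModelField K₁ (M' * q))
    (hW : IsAtkinLehnerModel K₁ M' q W)
    (xL : ModelField K₁ (M' * q)) (hxL : (xL : LaurentSeries K₁) = jqModC K₁)
    {x : ModelField K₁ (M' * q * q)}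
    {V20 V11 V02 : ValuationSubring (ModelField K₁ (M' * q * q))}
    (X₁ : ModelField K₁ (M' * q)) {Y₁ : ModelField K₁ (M' * q)}
    {Z : ModelField K₁ (M' * q * q)}
    (hG : AsmGlobal M' q K₁ OK x (vInf K₁ ↥OK (M' * q)) (vZero K₁ ↥OK (M' * q) W)
      V20 V11 V02 Y₁ Z)
    (hregL : ∀ 𝔪' : Ideal (chartClosure ↥OK (ModelField K₁ (M' * q)) xL), 𝔪'.IsMaximal →
      algebraMap ↥OK (chartClosure ↥OK (ModelField K₁ (M' * q)) xL) ((q : ℕ) : ↥OK) ∈ 𝔪' →
      RegLAtOne ↥OK (ModelField K₁ (M' * q)) ((q : ℕ) : ↥OK) xL 𝔪'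
        (vInf K₁ ↥OK (M' * q)) (vZero K₁ ↥OK (M' * q) W) X₁ Y₁)
    (hkron : Z ∈ chartClosure ↥OK (ModelField K₁ (M' * q * q)) x ∧
      (heckeBetaBar K₁ (M' * q) q).toRingHom X₁ =
        Z + (heckeAlphaBar K₁ (M' * q) q).toRingHom Y₁ ∧
      ∃ Gα Gβ : ModelField K₁ (M' * q * q),
        (∀ 𝔫 : Ideal (chartClosure ↥OK (ModelField K₁ (M' * q * q)) x), 𝔫.IsMaximal →
          algebraMap ↥OK (chartClosure ↥OK (ModelField K₁ (M' * q * q)) x) ((q : ℕ) : ↥OK) ∈ 𝔫 →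
          Fermat.Agent.H11.SS2.InLoc ↥OK (ModelField K₁ (M' * q * q)) x 𝔫 Gα) ∧
        (∀ 𝔫 : Ideal (chartClosure ↥OK (ModelField K₁ (M' * q * q)) x), 𝔫.IsMaximal →
          algebraMap ↥OK (chartClosure ↥OK (ModelField K₁ (M' * q * q)) x) ((q : ℕ) : ↥OK) ∈ 𝔫 →
          Fermat.Agent.H11.SS2.InLoc ↥OK (ModelField K₁ (M' * q * q)) x 𝔫 Gβ) ∧
        Z ^ (q - 1) * (Z + (heckeAlphaBar K₁ (M' * q) q).toRingHom Y₁) -
            (heckeAlphaBar K₁ (M' * q) q).toRingHom X₁ +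
            algebraMap ↥OK (ModelField K₁ (M' * q * q)) ((q : ℕ) : ↥OK) * Gα = 0 ∧
        (-Z) ^ (q - 1) * (-Z + (heckeBetaBar K₁ (M' * q) q).toRingHom X₁) -
            (heckeBetaBar K₁ (M' * q) q).toRingHom Y₁ +
            algebraMap ↥OK (ModelField K₁ (M' * q * q)) ((q : ℕ) : ↥OK) * Gβ = 0)
    (𝔪 : Ideal (chartClosure ↥OK (ModelField K₁ (M' * q * q)) x)) (h𝔪 : 𝔪.IsMaximal)
    (hq𝔪 : algebraMap ↥OK (chartClosure ↥OK (ModelField K₁ (M' * q * q)) x)
      ((q : ℕ) : ↥OK) ∈ 𝔪)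
    (h11 : ∀ 𝔪α 𝔪β : Ideal (chartClosure ↥OK (ModelField K₁ (M' * q)) xL),
      𝔪α.IsMaximal → 𝔪β.IsMaximal →
      LiesOverAlong ↥OK (ModelField K₁ (M' * q * q)) (ModelField K₁ (M' * q))
        (asmα M' q K₁) xL x 𝔪α 𝔪 →
      LiesOverAlong ↥OK (ModelField K₁ (M' * q * q)) (ModelField K₁ (M' * q))
        (asmβ M' q K₁) xL x 𝔪β 𝔪 →
      Through ↥OK (ModelField K₁ (M' * q * q)) x 𝔪 V11 →
      ¬ Through ↥OK (ModelField K₁ (M' * q * q)) x 𝔪 V20 →
      ¬ Through ↥OK (ModelField K₁ (M' * q * q)) x 𝔪 V02 →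
      Through ↥OK (ModelField K₁ (M' * q)) xL 𝔪α (vInf K₁ ↥OK (M' * q)) →
      ¬ Through ↥OK (ModelField K₁ (M' * q)) xL 𝔪α (vZero K₁ ↥OK (M' * q) W) →
      Through ↥OK (ModelField K₁ (M' * q)) xL 𝔪β (vZero K₁ ↥OK (M' * q) W) →
      ¬ Through ↥OK (ModelField K₁ (M' * q)) xL 𝔪β (vInf K₁ ↥OK (M' * q)) →
      ∃ x₁ x₂ : ModelField K₁ (M' * q * q),
        IsRegPoint ↥OK (ModelField K₁ (M' * q * q)) ((q : ℕ) : ↥OK) x 𝔪 V11 x₁ x₂) :
    AsmPt ↥OK (ModelField K₁ (M' * q)) (ModelField K₁ (M' * q * q)) q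
      (asmα M' q K₁) (asmβ M' q K₁) (vInf K₁ ↥OK (M' * q)) (vZero K₁ ↥OK (M' * q) W)
      V20 V11 V02 x 𝔪 := by
  classical
  haveI : CharZero K₁ := algebraRat.charZero K₁
  haveI : CharZero (ModelField K₁ (M' * q)) :=
    charZero_of_injective_algebraMap (algebraMap K₁ (ModelField K₁ (M' * q))).injective
  haveI : CharZero (ModelField K₁ (M' * q * q)) :=
    charZero_of_injective_algebraMap (algebraMap K₁ (ModelField K₁ (M' * q * q))).injective
  haveI hMq : NeZero (M' * q) := ⟨Nat.mul_ne_zero (NeZero.ne M') (NeZero.ne q)⟩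
  haveI hMqq : NeZero (M' * q * q) := ⟨Nat.mul_ne_zero (NeZero.ne (M' * q)) (NeZero.ne q)⟩
  have hqA : ¬ IsUnit ((q : ℕ) : ↥OK) := hirr.not_isUnit
  have hx : (x : LaurentSeries K₁) = jqModC K₁ := hG.chart
  have hxL' : (xL : LaurentSeries K₁) = coeffEmb K₁ jq := by rw [ss2_coeffEmb_jq]; exact hxL
  have hinj' := asm_algebraMap_injective (M' * q) K₁ OK
  have hinj := asm_algebraMap_injective (M' * q * q) K₁ OK
  have hT' := asm_transcendental (M' * q) K₁ OK xL hxL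
  have hT := asm_transcendental (M' * q * q) K₁ OK x hx
  have hfd' := asm_finite (M' * q) K₁ OK xL hxL
  have hfd := asm_finite (M' * q * q) K₁ OK x hx
  have hαA : ∀ a : ↥OK, asmα M' q K₁ (algebraMap ↥OK (ModelField K₁ (M' * q)) a) =
      algebraMap ↥OK (ModelField K₁ (M' * q * q)) a := by
    intro a
    rw [asm_algebraMap_model, asm_algebraMap_model]
    exact (heckeAlphaBar K₁ (M' * q) q).commutes _
  have hβA : ∀ a : ↥OK, asmβ M' q K₁ (algebraMap ↥OK (ModelField K₁ (M' * q)) a) =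
      algebraMap ↥OK (ModelField K₁ (M' * q * q)) a := by
    intro a
    rw [asm_algebraMap_model, asm_algebraMap_model]
    exact (heckeBetaBar K₁ (M' * q) q).commutes _
  have hαx : asmα M' q K₁ xL = x := ss2_alpha_chart (M' * q) q K₁ x xL hx hxL
  have hcα : chartClosure ↥OK (ModelField K₁ (M' * q * q)) (asmα M' q K₁ xL) =
      chartClosure ↥OK (ModelField K₁ (M' * q * q)) x := by rw [hαx]
  have hcβ : chartClosure ↥OK (ModelField K₁ (M' * q * q)) (asmβ M' q K₁ xL) =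
      chartClosure ↥OK (ModelField K₁ (M' * q * q)) x :=
    ss2_chartClosure_beta_eq (M' * q) q hq K₁ ↥OK x xL hx hxL
  obtain ⟨hZB, hX₂, Gα, Gβ, hGα, hGβ, hrelα, hrelβ⟩ := hkron
  exact asmPt_val3_below Fermat.Agent.H4.SS.localHartogs hinj' hinj q hq.two_le hirr hT' hfd'
    hT hfd (asmα M' q K₁) (asmβ M' q K₁) hαA hβA hcα hcβ
    (vInf K₁ ↥OK (M' * q)) (vZero K₁ ↥OK (M' * q) W) V20 V11 V02 X₁ Y₁ Z hG.val3
    hG.vert20 hG.vert11 hG.vert02 (fun z h1 h2 h3 => (hG.gauss z).2 ⟨h1, h2, h3⟩)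
    (modelFrac_vInf M' q K₁ ↥OK hq hqM hqA xL hxL' W hW)
    (modelFrac_vZero M' q K₁ ↥OK hq hqM hqA xL hxL' W hW)
    hregL hX₂ hZB Gα Gβ hGα hrelα hGβ hrelβ 𝔪 h𝔪 hq𝔪 h11

end Gen

end Fermat.Agent.H16.SS2P

end
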