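import Mathlib
import Fermat.Agent.H16.SS2P.PointsChart
import Fermat.Agent.H12.SS2.Reg11H11

/-!
# P-SS2 (S36), block (P) POINTS, chart `x = j`, with the norm package of REG11 (helper99)

`asmPtChart_norm` : `Fermat.Agent.H99.SS2.asmPtChart_gen` with the hypothesis `h11` replaced by
helper12's norm package (the conclusion of `Fermat.Agent.H12.SS2.Reg11PkgStatement`), through
`Fermat.Agent.H12.SS2.reg11_h11`.  ALL primes `q`, Hauptmodul-free.
-/

set_option autoImplicit false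
set_option linter.style.haveILetI false
set_option linter.unusedSectionVars false
set_option linter.unusedVariables false

noncomputable section

namespace Fermat.Agent.H16.SS2P

open Fermat.Agent.H99.SS2

open ModularCurve AlgebraicCurve
open Fermat.Agent.H22.KL Fermat.Agent.H11.SS2 Fermat.Agent.H7.SS2 Fermat.Agent.H19.SS2
open Fermat.Agent.H35.SS2 Fermat.Agent.H7.SS Fermat.Agent.H82.SS

section Norm

variable (M' q : ℕ) [NeZero M'] [NeZero q]
  (K₁ : Type) [Field K₁] [Algebra ℚ K₁] [FiniteDimensional ℚ K₁] (OK : ValuationSubring K₁)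
  [IsDiscreteValuationRing ↥OK]
  [Algebra ↥OK (ModelField K₁ (M' * q))] [IsScalarTower ↥OK K₁ (ModelField K₁ (M' * q))]
  [Algebra ↥OK (ModelField K₁ (M' * q * q))]
  [IsScalarTower ↥OK K₁ (ModelField K₁ (M' * q * q))]

/-- **(P) POINTS, chart `j`, per point, all primes `q`, Hauptmodul-free, REG11 from the norm
package.** -/
theorem asmPtChart_norm (hq : q.Prime) (hqM : ¬ q ∣ M')
    (hirr : Irreducible ((q : ℕ) : ↥OK))
    (W : ModelField K₁ (M' * q) ≃ₐ[K₁] ModelField K₁ (M' * q))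
    (hW : IsAtkinLehnerModel K₁ M' q W)
    (xL : ModelField K₁ (M' * q)) (hxL : (xL : LaurentSeries K₁) = jqModC K₁)
    {x : ModelField K₁ (M' * q * q)}
    {V20 V11 V02 : ValuationSubring (ModelField K₁ (M' * q * q))}
    (X₁ : ModelField K₁ (M' * q)) {Y₁ : ModelField K₁ (M' * q)}
    {Z : ModelField K₁ (M' * q * q)}
    (hG : AsmGlobal M' q K₁ OK x (vInf K₁ ↥OK (M' * q)) (vZero K₁ ↥OK (M' * q) W)
      V20 V11 V02 Y₁ Z)
    (hregL : ∀ 𝔪' : Ideal (chartClosure ↥OK (ModelField K₁ (M' * q)) xL), 𝔪'.IsMaximal →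
      algebraMap ↥OK (chartClosure ↥OK (ModelField K₁ (M' * q)) xL) ((q : ℕ) : ↥OK) ∈ 𝔪' →
      RegLAtOne ↥OK (ModelField K₁ (M' * q)) ((q : ℕ) : ↥OK) xL 𝔪'
        (vInf K₁ ↥OK (M' * q)) (vZero K₁ ↥OK (M' * q) W) X₁ Y₁)
    (hkron : Z ∈ chartClosure ↥OK (ModelField K₁ (M' * q * q)) x ∧
      (heckeBetaBar K₁ (M' * q) q).toRingHom X₁ =
        Z + (heckeAlphaBar K₁ (M' * q) q).toRingHom Y₁ ∧
      ∃ Gα Gβ : ModelField K₁ (M' * q * q),
        (∀ 𝔫 : Ideal (chartClosure ↥OK (ModelField K₁ (M' * q * q)) x), 𝔫.IsMaximal →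
          algebraMap ↥OK (chartClosure ↥OK (ModelField K₁ (M' * q * q)) x) ((q : ℕ) : ↥OK) ∈ 𝔫 →
          Fermat.Agent.H11.SS2.InLoc ↥OK (ModelField K₁ (M' * q * q)) x 𝔫 Gα) ∧
        (∀ 𝔫 : Ideal (chartClosure ↥OK (ModelField K₁ (M' * q * q)) x), 𝔫.IsMaximal →
          algebraMap ↥OK (chartClosure ↥OK (ModelField K₁ (M' * q * q)) x) ((q : ℕ) : ↥OK) ∈ 𝔫 →
          Fermat.Agent.H11.SS2.InLoc ↥OK (ModelField K₁ (M' * q * q)) x 𝔫 Gβ) ∧
        Z ^ (q - 1) * (Z + (heckeAlphaBar K₁ (M' * q) q).toRingHom Y₁) -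
            (heckeAlphaBar K₁ (M' * q) q).toRingHom X₁ +
            algebraMap ↥OK (ModelField K₁ (M' * q * q)) ((q : ℕ) : ↥OK) * Gα = 0 ∧
        (-Z) ^ (q - 1) * (-Z + (heckeBetaBar K₁ (M' * q) q).toRingHom X₁) -
            (heckeBetaBar K₁ (M' * q) q).toRingHom Y₁ +
            algebraMap ↥OK (ModelField K₁ (M' * q * q)) ((q : ℕ) : ↥OK) * Gβ = 0)
    (hpkg : ∃ (hY₁B : Y₁ ∈ chartClosure ↥OK (ModelField K₁ (M' * q)) xL)
      (e c u : chartClosure ↥OK (ModelField K₁ (M' * q)) xL) (w : ModelField K₁ (M' * q)),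
      IsUnit e ∧
      (u : ModelField K₁ (M' * q)) = (e : ModelField K₁ (M' * q)) * Y₁ +
        algebraMap ↥OK (ModelField K₁ (M' * q)) ((q : ℕ) : ↥OK) *
          (c : ModelField K₁ (M' * q)) ∧
      @Algebra.norm (ModelField K₁ (M' * q)) (ModelField K₁ (M' * q * q)) _ _
          (heckeAlphaBar K₁ (M' * q) q).toRingHom.toAlgebra Z
        = algebraMap ↥OK (ModelField K₁ (M' * q)) ((q : ℕ) : ↥OK) * w *
          (u : ModelField K₁ (M' * q)) ∧
      ∀ 𝔪' : Ideal (chartClosure ↥OK (ModelField K₁ (M' * q)) xL), 𝔪'.IsMaximal →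
        algebraMap ↥OK (chartClosure ↥OK (ModelField K₁ (M' * q)) xL) ((q : ℕ) : ↥OK) ∈ 𝔪' →
        Through ↥OK (ModelField K₁ (M' * q)) xL 𝔪' (vInf K₁ ↥OK (M' * q)) →
        ¬ Through ↥OK (ModelField K₁ (M' * q)) xL 𝔪' (vZero K₁ ↥OK (M' * q) W) →
        IsLocUnit ↥OK (ModelField K₁ (M' * q)) xL 𝔪' w ∧
        ((⟨Y₁, hY₁B⟩ : chartClosure ↥OK (ModelField K₁ (M' * q)) xL) ∉ 𝔪' ∨
          Fermat.Agent.H41.SS.IsRegularAt ↥OK (ModelField K₁ (M' * q)) ((q : ℕ) : ↥OK) xL 𝔪'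
            ⟨Y₁, hY₁B⟩))
    (𝔪 : Ideal (chartClosure ↥OK (ModelField K₁ (M' * q * q)) x)) (h𝔪 : 𝔪.IsMaximal)
    (hq𝔪 : algebraMap ↥OK (chartClosure ↥OK (ModelField K₁ (M' * q * q)) x)
      ((q : ℕ) : ↥OK) ∈ 𝔪) :
    AsmPt ↥OK (ModelField K₁ (M' * q)) (ModelField K₁ (M' * q * q)) q
      (asmα M' q K₁) (asmβ M' q K₁) (vInf K₁ ↥OK (M' * q)) (vZero K₁ ↥OK (M' * q) W)
      V20 V11 V02 x 𝔪 := by
  classical
  haveI : CharZero K₁ := algebraRat.charZero K₁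
  haveI : CharZero (ModelField K₁ (M' * q)) :=
    charZero_of_injective_algebraMap (algebraMap K₁ (ModelField K₁ (M' * q))).injective
  haveI : CharZero (ModelField K₁ (M' * q * q)) :=
    charZero_of_injective_algebraMap (algebraMap K₁ (ModelField K₁ (M' * q * q))).injective
  haveI hMq : NeZero (M' * q) := ⟨Nat.mul_ne_zero (NeZero.ne M') (NeZero.ne q)⟩
  haveI hMqq : NeZero (M' * q * q) := ⟨Nat.mul_ne_zero (NeZero.ne (M' * q)) (NeZero.ne q)⟩
  have hqA : ¬ IsUnit ((q : ℕ) : ↥OK) := hirr.not_isUnit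
  have hx : (x : LaurentSeries K₁) = jqModC K₁ := hG.chart
  have hxL' : (xL : LaurentSeries K₁) = coeffEmb K₁ jq := by rw [ss2_coeffEmb_jq]; exact hxL
  have hinj' := asm_algebraMap_injective (M' * q) K₁ OK
  have hinj := asm_algebraMap_injective (M' * q * q) K₁ OK
  have hT' := asm_transcendental (M' * q) K₁ OK xL hxL
  have hT := asm_transcendental (M' * q * q) K₁ OK x hx
  have hfd' := asm_finite (M' * q) K₁ OK xL hxL
  have hfd := asm_finite (M' * q * q) K₁ OK x hx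
  have hαA : ∀ a : ↥OK, asmα M' q K₁ (algebraMap ↥OK (ModelField K₁ (M' * q)) a) =
      algebraMap ↥OK (ModelField K₁ (M' * q * q)) a := by
    intro a
    rw [asm_algebraMap_model, asm_algebraMap_model]
    exact (heckeAlphaBar K₁ (M' * q) q).commutes _
  have hβA : ∀ a : ↥OK, asmβ M' q K₁ (algebraMap ↥OK (ModelField K₁ (M' * q)) a) =
      algebraMap ↥OK (ModelField K₁ (M' * q * q)) a := by
    intro a
    rw [asm_algebraMap_model, asm_algebraMap_model]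
    exact (heckeBetaBar K₁ (M' * q) q).commutes _
  have hαx : asmα M' q K₁ xL = x := ss2_alpha_chart (M' * q) q K₁ x xL hx hxL
  have hcβ : chartClosure ↥OK (ModelField K₁ (M' * q * q)) (asmβ M' q K₁ xL) =
      chartClosure ↥OK (ModelField K₁ (M' * q * q)) x :=
    ss2_chartClosure_beta_eq (M' * q) q hq K₁ ↥OK x xL hx hxL
  obtain ⟨hZB, hX₂, Gα, Gβ, hGα, hGβ, hrelα, hrelβ⟩ := hkron
  obtain ⟨hY₁B, e, c, u, w, he, hudef, hN, hloc⟩ := hpkg
  exact Fermat.Agent.H12.SS2.asmPt_val3_reg11 Fermat.Agent.H4.SS.localHartogs hinj' hinj q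
    hq.two_le hirr hT' hfd' hT hfd (asmα M' q K₁) (asmβ M' q K₁) hαA hβA hαx hcβ
    (vInf K₁ ↥OK (M' * q)) (vZero K₁ ↥OK (M' * q) W) V20 V11 V02 X₁ Y₁ Z hG.val3
    hG.vert20 hG.vert11 hG.vert02 (fun z h1 h2 h3 => (hG.gauss z).2 ⟨h1, h2, h3⟩)
    (modelFrac_vInf M' q K₁ ↥OK hq hqM hqA xL hxL' W hW)
    (modelFrac_vZero M' q K₁ ↥OK hq hqM hqA xL hxL' W hW)
    hregL hX₂ hZB Gα Gβ hGα hrelα hGβ hrelβ hG.degα.1 w hY₁B e c u he hudef hN hloc 𝔪 h𝔪 hq𝔪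

end Norm

end Fermat.Agent.H16.SS2P

end
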