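import Mathlib
import Fermat.Agent.H16.SS2P.PointsChartNorm
import Fermat.Agent.H93.SS2.KronRelModel
import Fermat.Agent.H93.SS2.VertIffU
import Fermat.Agent.H7.SS2.RegLH4Final
import Fermat.Agent.H4.SS2.ModelVal3B
import Fermat.Agent.H12.SS2.Reg11PkgProof
import Fermat.Agent.H95.SS2.SimpleY

/-!
# P-SS2 (S36), block (P) POINTS, chart `x = j`, `q` odd, `4 ∣ M'` : UNCONDITIONAL (helper99)

* `asmPtChart_h4` : every closed point `𝔪 ∋ q` of the chart `B(j)` of level `M' q²` over an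
  unramified base `OK` satisfies `Fermat.Agent.H19.SS2.AsmPt`, for `q` an odd prime, `4 ∣ M'`,
  `q ∤ M'`, the keystone data `Y₁ = sY1`, `Z = sZ` and ANY `AsmGlobal` package.
  (The statement-level form `AsmPointsChartStatement M' q R` is in
  `Fermat.Agent.H99.SS2.PointsFinal`.)

Plugged in (all landed, unconditional): helper7 `regLChartR_of` + `smoothGenR_h4` + `nodeGenR_h4`
(REGL in the chart `j`, with `R = 1`), helper93 `modelKronRel4` + `modelChartEqU` (Kronecker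
relations), helper86 `modelVal3Inputs` with helper73 `modelKron2`, helper6 `modelNormZ`, helper90
`modelRed`, helper79 `al2Exists`; helper12 `reg11Pkg` + `asmPt_val3_reg11` with helper95
`simpleY` (REG11); helper35 `ss2_chartClosure_beta_eq`; helper4 `localHartogs`.
-/

set_option autoImplicit false
set_option linter.style.haveILetI false
set_option linter.unusedSectionVars false
set_option linter.unusedVariables false

noncomputable section

namespace Fermat.Agent.H16.SS2P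

open Fermat.Agent.H99.SS2

open ModularCurve AlgebraicCurve
open Fermat.Agent.H22.KL Fermat.Agent.H11.SS2 Fermat.Agent.H7.SS2 Fermat.Agent.H19.SS2
open Fermat.Agent.H35.SS2 Fermat.Agent.H7.SS Fermat.Agent.H82.SS Fermat.Agent.H86.SS2
open Fermat.Agent.H8.SS

section Four

variable (M' q : ℕ) [NeZero M'] [NeZero q]
  (K₁ : Type) [Field K₁] [Algebra ℚ K₁] [FiniteDimensional ℚ K₁] (OK : ValuationSubring K₁)
  [IsDiscreteValuationRing ↥OK]
  [Algebra ↥OK (ModelField K₁ (M' * q))] [IsScalarTower ↥OK K₁ (ModelField K₁ (M' * q))]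
  [Algebra ↥OK (ModelField K₁ (M' * q * q))]
  [IsScalarTower ↥OK K₁ (ModelField K₁ (M' * q * q))]

/-- **(P) POINTS, chart `j`, per point** (`q` odd, `4 ∣ M'`), unconditional. -/
theorem asmPtChart_h4 (hq : q.Prime) (hq2 : q ≠ 2) (h4 : 4 ∣ M') (hqM : ¬ q ∣ M')
    (hirr : Irreducible ((q : ℕ) : ↥OK))
    (W : ModelField K₁ (M' * q) ≃ₐ[K₁] ModelField K₁ (M' * q))
    (hW : IsAtkinLehnerModel K₁ M' q W)
    {x : ModelField K₁ (M' * q * q)}
    {V20 V11 V02 : ValuationSubring (ModelField K₁ (M' * q * q))}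
    {Y₁ : ModelField K₁ (M' * q)} {Z : ModelField K₁ (M' * q * q)}
    (hY₁ : (Y₁ : LaurentSeries K₁) = sY1 K₁ q) (hZ : (Z : LaurentSeries K₁) = sZ K₁ q)
    (hG : AsmGlobal M' q K₁ OK x (vInf K₁ ↥OK (M' * q)) (vZero K₁ ↥OK (M' * q) W)
      V20 V11 V02 Y₁ Z)
    (𝔪 : Ideal (chartClosure ↥OK (ModelField K₁ (M' * q * q)) x)) (h𝔪 : 𝔪.IsMaximal)
    (hq𝔪 : algebraMap ↥OK (chartClosure ↥OK (ModelField K₁ (M' * q * q)) x)
      ((q : ℕ) : ↥OK) ∈ 𝔪) :
    AsmPt ↥OK (ModelField K₁ (M' * q)) (ModelField K₁ (M' * q * q)) q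
      (asmα M' q K₁) (asmβ M' q K₁) (vInf K₁ ↥OK (M' * q)) (vZero K₁ ↥OK (M' * q) W)
      V20 V11 V02 x 𝔪 := by
  classical
  haveI : Fact q.Prime := ⟨hq⟩
  haveI hMq : NeZero (M' * q) := ⟨Nat.mul_ne_zero (NeZero.ne M') (NeZero.ne q)⟩
  have hx : (x : LaurentSeries K₁) = jqModC K₁ := hG.chart
  have hx' : (x : LaurentSeries K₁) = coeffEmb K₁ jq := by rw [ss2_coeffEmb_jq]; exact hx
  -- the chart at level `M' q`
  have hxLmem : jqModC K₁ ∈ laurentBaseChange K₁ (modularFunctionFieldFull (M' * q)) := by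
    rw [← ss2_coeffEmb_jq]
    exact coeffEmb_mem_laurentBaseChange K₁ (jqModC_mem_full ℚ (M' * q))
  obtain ⟨xL, hxL⟩ : ∃ xL : ModelField K₁ (M' * q), (xL : LaurentSeries K₁) = jqModC K₁ :=
    ⟨⟨_, hxLmem⟩, rfl⟩
  have hxL' : (xL : LaurentSeries K₁) = coeffEmb K₁ jq := by rw [ss2_coeffEmb_jq]; exact hxL
  -- the keystone inputs
  obtain ⟨X₁, Y₁', Z', Pα, Pβ, hXs, hYs, hZs, hI⟩ :=
    modelVal3Inputs (K₁ := K₁) (A₀ := ↥OK) (M' := M') (q := q)
      (Fermat.Agent.H73.Kron2.modelKron2 M' q (Fermat.Agent.H6.SS2.modelNormZ q))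
      (Fermat.Agent.H90.SS2Red.modelRed q) (Fermat.Agent.H79.SS2.al2Exists M' q)
      hq2 h4 hqM hirr W hW
  have eY' : Y₁' = Y₁ := Subtype.ext (hYs.trans hY₁.symm)
  have eZ' : Z' = Z := Subtype.ext (hZs.trans hZ.symm)
  subst eY' eZ'
  -- the Hauptmodul of level 4 and its transform
  let H₀ : ModelField K₁ M' := ⟨h4S K₁, h4S_mem_laurentBaseChange K₁ M' h4⟩
  let H : ModelField K₁ (M' * q) := heckeAlphaBar K₁ M' q H₀
  let Hq : ModelField K₁ (M' * q) := heckeBetaBar K₁ M' q H₀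
  have hHs : (H : LaurentSeries K₁) = h4S K₁ := by
    show ((heckeAlphaBar K₁ M' q H₀ : ModelField K₁ (M' * q)) : LaurentSeries K₁) = _
    rw [coe_heckeAlphaBar]
  have hHqs : (Hq : LaurentSeries K₁) = qExpand K₁ q (h4S K₁) := by
    show ((heckeBetaBar K₁ M' q H₀ : ModelField K₁ (M' * q)) : LaurentSeries K₁) = _
    rw [coe_heckeBetaBar]
  have hcf : coeffEmb K₁ (h4S ℚ) = h4S K₁ := by rw [coeffEmb, coeffMap_h4S]
  have hH : (H : LaurentSeries K₁) = coeffEmb K₁ (h4S ℚ) := by rw [hcf]; exact hHs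
  have hHq : (Hq : LaurentSeries K₁) = qExpand K₁ q (coeffEmb K₁ (h4S ℚ)) := by
    rw [hcf]; exact hHqs
  have eX : X₁ = Hq - H ^ q := by
    apply Subtype.ext
    rw [hXs]
    show sX1 K₁ q = (Hq : LaurentSeries K₁) - (H : LaurentSeries K₁) ^ q
    rw [hHs, hHqs]
    rfl
  have eY : Y₁' = H - Hq ^ q := by
    apply Subtype.ext
    rw [hYs]
    show sY1 K₁ q = (H : LaurentSeries K₁) - (Hq : LaurentSeries K₁) ^ q
    rw [hHs, hHqs]
    rfl
  -- REGL in the chart `j`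
  have hregL := regLChartR_of M' q hq hqM h4Z 1
    (fun K₁ _ _ => h4S_mem_laurentBaseChange K₁ M' h4)
    (smoothGenR_h4 M' q hq hq2 hqM h4 1) (nodeGenR_h4 M' q hq hq2 hqM h4 1)
    K₁ ↥OK hirr ⟨1, IsPrimitiveRoot.one⟩ xL hxL' W hW H Hq hH hHq
  rw [← eX, ← eY] at hregL
  -- the Kronecker relations
  have hkron := Fermat.Agent.H93.SS2.modelKronRel4 M' q K₁ ↥OK hq hq2 h4 hqM
    (Fermat.Agent.H93.SS2.modelChartEqU M' q) hirr W hW X₁ Y₁' Z' Pα Pβ hXs hYs hI x hx'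
    V20 V11 V02 hG.val3 (fun z h1 h2 h3 => (hG.gauss z).2 ⟨h1, h2, h3⟩)
  -- the norm package of REG11
  have hpkg := Fermat.Agent.H12.SS2.reg11Pkg M' q h4 hq hq2 hqM
    (Fermat.Agent.H95.SS2.simpleY M' q hq hq2 hqM h4) K₁ ↥OK hirr xL hxL' W hW Z' hZs Y₁' hYs
  exact asmPtChart_norm M' q K₁ OK hq hqM hirr W hW xL hxL X₁ hG hregL hkron hpkg 𝔪 h𝔪 hq𝔪

end Four

end Fermat.Agent.H16.SS2P

end
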