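import Mathlib
import Fermat.Agent.H16.SS2P.PointsChartH4
import Fermat.Agent.H22.SS2.PointsInv
import Fermat.Agent.H35.SS2.AsmGlue2

/-!
# P-SS2 (S36), block (P) POINTS : both halves and the glue, `q` odd, `4 ∣ M'` (helper99)

* `asmPointsChart_h4 : Fermat.Agent.H35.SS2.AsmPointsChartStatement M' q R` for every `R`
  (the root of unity is not used): the first half of (P) (closed points of the chart `x = j`);
* `asmPointsInv_all : Fermat.Agent.H35.SS2.AsmPointsInvStatement M' q M'` : the second half of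
  (P) (helper22's `Fermat.Agent.H22.SS2.asmPointsInv`), all primes `q ∤ M'`;
* `newInvariantFF_odd : Fermat.Agent.H35.SS2.NewInvariantFFStatement (M' * q) q` for `q` an odd
  prime, `4 ∣ M'`, `q ∤ M'` (helper35's glue `newInvariantFF_of_halves`).
-/

set_option autoImplicit false
set_option linter.style.haveILetI false
set_option linter.unusedSectionVars false
set_option linter.unusedVariables false

noncomputable section

namespace Fermat.Agent.H16.SS2P

open Fermat.Agent.H99.SS2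

open ModularCurve AlgebraicCurve
open Fermat.Agent.H22.KL Fermat.Agent.H11.SS2 Fermat.Agent.H7.SS2 Fermat.Agent.H19.SS2
open Fermat.Agent.H35.SS2 Fermat.Agent.H82.SS Fermat.Agent.H86.SS2

/-- **(P) POINTS, first half (chart `x = j`)**, `q` odd, `4 ∣ M'`, `q ∤ M'`: helper35's target
`AsmPointsChartStatement M' q R`, for every `R`. -/
theorem asmPointsChart_h4 (M' q : ℕ) [NeZero M'] [NeZero q] (hq : q.Prime) (hq2 : q ≠ 2)
    (h4 : 4 ∣ M') (hqM : ¬ q ∣ M') (R : ℕ) : AsmPointsChartStatement M' q R := by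
  intro K₁ _ _ _ OK _ _ _ _ _ hirr _ W hW x X₁ Y₁ Z V11 V02 _ _ hY₁ hZ _ hG 𝔪 h𝔪 hq𝔪
  exact asmPtChart_h4 M' q K₁ OK hq hq2 h4 hqM hirr W hW hY₁ hZ hG 𝔪 h𝔪 hq𝔪

/-- **(P) POINTS, second half (chart `x⁻¹`)**, all primes `q ∤ M'` (helper22). -/
theorem asmPointsInv_all (M' q : ℕ) [NeZero M'] [NeZero q] (hq : q.Prime) (hqM : ¬ q ∣ M') :
    AsmPointsInvStatement M' q M' := by
  intro K₁ _ _ _ OK _ _ _ _ _ hirr hζ W hW x Y₁ Z V20 V11 V02 hG
  exact Fermat.Agent.H22.SS2.asmPointsInv M' q hq hqM K₁ OK hirr hζ W hW hG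

/-- **NEW-INVARIANT-FF for `q` odd, `4 ∣ M'`, `q ∤ M'`** : (P) plugged into helper35's glue. -/
theorem newInvariantFF_odd (M' q : ℕ) [NeZero M'] [NeZero q] (hq : q.Prime) (hq2 : q ≠ 2)
    (h4 : 4 ∣ M') (hqM : ¬ q ∣ M') : NewInvariantFFStatement (M' * q) q :=
  newInvariantFF_of_halves M' q 1 M' hq hq2 h4 hqM Nat.one_pos
    (Nat.pos_of_ne_zero (NeZero.ne M')) (fun h => hq.one_lt.ne' (Nat.dvd_one.mp h)) hqM
    (asmPointsChart_h4 M' q hq hq2 h4 hqM 1) (asmPointsInv_all M' q hq hqM)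

end Fermat.Agent.H16.SS2P

end
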